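/-
PROJECT D (S48, Deligne–Serre), PART B, block B2 (Igusa for `X₁(M)`), file `U1/Inertia` = section
(s0) of helper23's cut of `Igusa/Unique1` (helper3): INSTANTIATION AT THE INERTIA FIELD.

`A` a valuation subring of `ℚ̄` over the rational prime `ℓ`; `K0 A` its inertia field and
`W A = A ∩ K0 A` (main's `S18/C/SmallDVR`), a discrete valuation ring with uniformiser `ℓ`.

* `valuation_le_one_iff`, `valuation_lt_one_iff`, `valuation_eq_one_iff` : the valuation of `W A`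
  on `K0 A` compared with the valuation of `A` on `ℚ̄`;
* `isUnif_W hA : GaussDVR.IsUnif (W A).valuation ℓ`;
* `valuation_natCast_eq_one hA (hℓM : ¬ ℓ ∣ M) : (W A).valuation M = 1`;
* `exists_input M hA hℓM` : an embedding `ι : K0 A →+* ℂ` and a unit `u` of `K0 A` with `u ^ M = 1`
  and `Galois.Input M ι u` (the `M`-th roots of unity lie in the inertia field since `ℓ ∤ M`:
  main's `CFT/C7/KummerUnram.inertia_fix_of_pow_eq_one`; the analytic input is helper16's theorem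
  `WpInput.input`).
-/
import Mathlib
import Fermat.Agent.S05.Local
import Fermat.Agent.S18.C.SmallDVR
import Fermat.Agent.CFT.C7.KummerUnram
import Fermat.Agent.S48.B.Igusa.GaussDVR
import Fermat.Agent.S48.B.Igusa.Full.Galois
import Fermat.Agent.S48.B.Igusa.Full.Analytic.WpInput

set_option autoImplicit false

noncomputable section

namespace Fermat.Agent.S48.B.Igusa.U1.Inertia

open Fermat.Agent.S18.C.SmallDVR (K0 W)
open Fermat.Agent.S48.B.Igusa
open Fermat.Agent.S48.B.Igusa.Full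

local notation "Kb" => AlgebraicClosure ℚ

variable {ℓ : ℕ} [hℓ : Fact ℓ.Prime] {A : ValuationSubring Kb}

/-! ### the valuation of `W A` against the valuation of `A` -/

theorem valuation_le_one_iff (x : ↥(K0 A)) :
    (W A).valuation x ≤ 1 ↔ A.valuation ((x : ↥(K0 A)) : Kb) ≤ 1 := by
  rw [ValuationSubring.valuation_le_one_iff, ValuationSubring.valuation_le_one_iff]
  exact Iff.rfl

theorem valuation_lt_one_iff (x : ↥(K0 A)) :
    (W A).valuation x < 1 ↔ A.valuation ((x : ↥(K0 A)) : Kb) < 1 := by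
  by_cases hx : x = 0
  · subst hx
    simp
  have hx' : ((x : ↥(K0 A)) : Kb) ≠ 0 := fun h0 => hx (Subtype.ext h0)
  have h1 : (W A).valuation x < 1 ↔ ¬ (W A).valuation x⁻¹ ≤ 1 := by
    rw [map_inv₀, inv_le_one₀ (zero_lt_iff.mpr ((Valuation.ne_zero_iff _).mpr hx)), not_le]
  have h2 : A.valuation ((x : ↥(K0 A)) : Kb) < 1 ↔
      ¬ A.valuation (((x⁻¹ : ↥(K0 A)) : ↥(K0 A)) : Kb) ≤ 1 := by
    have h3 : (((x⁻¹ : ↥(K0 A)) : ↥(K0 A)) : Kb) = ((x : ↥(K0 A)) : Kb)⁻¹ := rfl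
    rw [h3, map_inv₀, inv_le_one₀ (zero_lt_iff.mpr ((Valuation.ne_zero_iff _).mpr hx')), not_le]
  rw [h1, h2, valuation_le_one_iff]

theorem valuation_eq_one_iff (x : ↥(K0 A)) :
    (W A).valuation x = 1 ↔ A.valuation ((x : ↥(K0 A)) : Kb) = 1 := by
  constructor
  · intro h
    exact le_antisymm ((valuation_le_one_iff x).mp h.le)
      (not_lt.mp fun h1 => ((valuation_lt_one_iff x).mpr h1).ne h)
  · intro h
    exact le_antisymm ((valuation_le_one_iff x).mpr h.le)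
      (not_lt.mp fun h1 => ((valuation_lt_one_iff x).mp h1).ne h)

theorem coe_natCast (n : ℕ) : (((n : ↥(K0 A)) : ↥(K0 A)) : Kb) = (n : Kb) := rfl

/-! ### `ℓ` is a uniformiser of `W A` -/

/-- a nonzero element of `W A` has the valuation of a power of `ℓ` -/
theorem exists_valuation_eq_pow (hA : A.LiesOverPrime ℓ) (x : ↥(K0 A)) (hx : x ≠ 0)
    (hxW : (W A).valuation x ≤ 1) :
    ∃ n : ℕ, (W A).valuation x = (W A).valuation (((ℓ : ℕ) : ↥(K0 A))) ^ n := by
  have hmem : x ∈ W A := (ValuationSubring.valuation_le_one_iff _ _).mp hxW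
  have hne : (⟨x, hmem⟩ : ↥(W A)) ≠ 0 := fun h0 => hx (congrArg Subtype.val h0)
  obtain ⟨n, u, hu⟩ := Fermat.Agent.S18.C.SmallDVR.exists_unit_mul_pow hA ⟨x, hmem⟩ hne
  refine ⟨n, ?_⟩
  have h1 : x = ((u : ↥(W A)) : ↥(K0 A)) * (((ℓ : ℕ) : ↥(K0 A))) ^ n := by
    have := congrArg (Subtype.val : ↥(W A) → ↥(K0 A)) hu
    simpa using this
  rw [h1, map_mul, map_pow, ValuationSubring.valuation_unit, one_mul]

theorem isUnif_W (hA : A.LiesOverPrime ℓ) :
    GaussDVR.IsUnif (W A).valuation (((ℓ : ℕ) : ↥(K0 A))) where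
  lt_one := by
    rw [valuation_lt_one_iff, coe_natCast]
    exact Fermat.Agent.S18.C.SmallDVR.valuation_ell_lt_one hA
  ne_zero := by
    have h := hℓ.out.ne_zero
    exact_mod_cast h
  le_of_lt_one x hx := by
    by_cases hx0 : x = 0
    · rw [hx0, map_zero]
      exact zero_le
    obtain ⟨n, hn⟩ := exists_valuation_eq_pow hA x hx0 hx.le
    have hn0 : n ≠ 0 := by
      rintro rfl
      rw [pow_zero] at hn
      exact hx.ne hn
    have hle : (W A).valuation (((ℓ : ℕ) : ↥(K0 A))) ≤ 1 := by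
      rw [valuation_le_one_iff, coe_natCast]
      exact (Fermat.Agent.S18.C.SmallDVR.valuation_ell_lt_one hA).le
    rw [hn]
    calc (W A).valuation (((ℓ : ℕ) : ↥(K0 A))) ^ n
        ≤ (W A).valuation (((ℓ : ℕ) : ↥(K0 A))) ^ 1 :=
          pow_le_pow_right_of_le_one' hle (Nat.one_le_iff_ne_zero.mpr hn0)
      _ = _ := pow_one _
  exists_pow_le x hx := by
    by_cases hxW : (W A).valuation x ≤ 1
    · obtain ⟨n, hn⟩ := exists_valuation_eq_pow hA x hx hxW
      exact ⟨n, hn.ge⟩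
    · exact ⟨0, by rw [pow_zero]; exact (not_le.mp hxW).le⟩

/-! ### the integers prime to `ℓ` are units of `W A` -/

theorem valuation_natCast_eq_one (hA : A.LiesOverPrime ℓ) {M : ℕ} (hℓM : ¬ ℓ ∣ M) :
    (W A).valuation (((M : ℕ) : ↥(K0 A))) = 1 := by
  rw [valuation_eq_one_iff, coe_natCast]
  exact (Fermat.Agent.S05.Local.valuation_natCast_eq_one_iff hℓ.out hA M).mpr hℓM

/-! ### the analytic input over the inertia field -/

/-- an embedding of `ℚ̄` into `ℂ` -/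
def iotaC : Kb →+* ℂ := (IsAlgClosed.lift : Kb →ₐ[ℚ] ℂ).toRingHom

/-- there is an `M`-th root of unity of `ℚ̄` mapping to `e(1/M)` -/
theorem exists_zeta (M : ℕ) [NeZero M] : ∃ ζ : Kb, ζ ^ M = 1 ∧ iotaC ζ = Family.zetaC M := by
  have : NeZero ((M : ℕ) : Kb) := ⟨by exact_mod_cast NeZero.ne M⟩
  obtain ⟨ζ₀, hζ₀⟩ := HasEnoughRootsOfUnity.exists_primitiveRoot Kb M
  have h1 : IsPrimitiveRoot (iotaC ζ₀) M := hζ₀.map_of_injective iotaC.injective
  have h2 : (Family.zetaC M) ^ M = 1 := (Complex.isPrimitiveRoot_exp M (NeZero.ne M)).pow_eq_one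
  obtain ⟨i, -, hi⟩ := h1.eq_pow_of_pow_eq_one h2
  refine ⟨ζ₀ ^ i, ?_, ?_⟩
  · rw [← pow_mul, mul_comm, pow_mul, hζ₀.pow_eq_one, one_pow]
  · rw [map_pow, hi]

/-- **the analytic input of `FF_M` over the inertia field** (`ℓ ∤ M`) -/
theorem exists_input (M : ℕ) [NeZero M] (hA : A.LiesOverPrime ℓ) (hℓM : ¬ ℓ ∣ M) :
    ∃ (ι : ↥(K0 A) →+* ℂ) (u : (↥(K0 A))ˣ), u ^ M = 1 ∧
      Galois.Input M ι ((u : (↥(K0 A))ˣ) : ↥(K0 A)) := by
  obtain ⟨ζ, hζM, hζ⟩ := exists_zeta M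
  have hMA : A.valuation ((M : ℕ) : Kb) = 1 :=
    (Fermat.Agent.S05.Local.valuation_natCast_eq_one_iff hℓ.out hA M).mpr hℓM
  have hmem : ζ ∈ K0 A := by
    rw [Fermat.Agent.S18.C.SmallDVR.mem_K0_iff]
    intro σ hσ
    exact Fermat.Agent.CFT.C7.KummerUnram.inertia_fix_of_pow_eq_one A hσ hMA hζM
  have hne : (⟨ζ, hmem⟩ : ↥(K0 A)) ≠ 0 := by
    intro h0
    have h1 : ζ = 0 := congrArg Subtype.val h0
    rw [h1, zero_pow (NeZero.ne M)] at hζM
    exact zero_ne_one hζM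
  refine ⟨iotaC.comp (algebraMap ↥(K0 A) Kb), Units.mk0 ⟨ζ, hmem⟩ hne, ?_, ?_⟩
  · apply Units.ext
    rw [Units.val_pow_eq_pow_val, Units.val_mk0, Units.val_one]
    exact Subtype.ext hζM
  · exact Analytic.WpInput.input M _ _ hζ

end Fermat.Agent.S48.B.Igusa.U1.Inertia

end
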