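/-
PROJECT D (S48, Deligne–Serre), PART B, block B2 (Igusa for `X₁(M)`), brick U1/(s1) (helper23):
THE FULL LEVEL `M` FIELD CONSISTS OF RATIOS OF INTEGRAL SERIES, AND `q ↦ ζ q` PRESERVES ITS GAUSS
RING.

On top of helper25's generic `GaussDVR` (`K` a field with a valuation `v` and a uniformiser `ϖ`)
and helper12's formal `Full/Defs` (`FFull M ζ = K(j(q^M), f_v)`):

* `map_intCast_le_one`, `coeffMap_int_mem_Ol`, `ofPowerSeries_mem_Ol` : integral series;
* `isRatio_adjoin` : a subfield of `K((q))` generated over `K` by `v`-integral series consists of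
  quotients of `v`-integral elements (generic twin of main's `S28/GaussVal.isRatio_adjoin`);
* `mem_Ol_rescaleU`, `isPrim_rescaleU`, `inOw_rescaleU`, `inOw_rescaleU_iff` : the substitution
  `q ↦ u q`, `v u = 1`, preserves integrality, primitivity and the Gauss ring of every field stable
  under it;
* `v_one_sub_zpw` : `1 - ζ^s` is a `v`-unit when `M` is (`∏ (1 - ζ^k) = M`);
* `jM_mem_Ol`, `fF_mem_Ol`, `isRatio_FFull` : the generators of `FFull M ζ` are `v`-integral, hence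
  `GaussDVR.Ow v (FFull M ζ)` is defined;
* `inOw_rescaleU_FFull` : `q ↦ ζ q` preserves `InOw v (FFull M ζ)`.
-/
import Mathlib
import Fermat.Prelude.Def_ModularCurve_X0ModL
import Fermat.Agent.S48.B.Igusa.GaussDVR
import Fermat.Agent.S48.B.Igusa.Full.Defs

set_option autoImplicit false

noncomputable section

namespace Fermat.Agent.S48.B.Igusa.U1.Ratio

open HahnSeries ModularCurve
open Fermat.Agent.S48.B.Igusa.GaussDVR Fermat.Agent.S48.B.Igusa.Full.Defs
open Fermat.Agent.S48.B.Defs.Model Fermat.Agent.S28.LaurentRescale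

variable {K : Type*} [Field K] {Γ₀ : Type*} [LinearOrderedCommGroupWithZero Γ₀]
  {v : Valuation K Γ₀} {ϖ : K}

/-! ### Integral series -/

theorem map_natCast_le_one (v : Valuation K Γ₀) (n : ℕ) : v (n : K) ≤ 1 := by
  induction n with
  | zero => rw [Nat.cast_zero, map_zero]; exact zero_le_one
  | succ n ih =>
    rw [Nat.cast_succ]
    exact (v.map_add _ _).trans (max_le ih (by rw [map_one]))

theorem map_intCast_le_one (v : Valuation K Γ₀) (n : ℤ) : v (n : K) ≤ 1 := by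
  rcases Int.eq_nat_or_neg n with ⟨m, rfl | rfl⟩
  · rw [Int.cast_natCast]
    exact map_natCast_le_one v m
  · rw [Int.cast_neg, Valuation.map_neg, Int.cast_natCast]
    exact map_natCast_le_one v m

/-- a series with integer coefficients is `v`-integral -/
theorem coeffMap_int_mem_Ol (v : Valuation K Γ₀) (y : LaurentSeries ℤ) :
    coeffMap (Int.castRingHom K) y ∈ Ol v := by
  intro k
  rw [coeffMap_coeff]
  exact map_intCast_le_one v _

theorem ofPowerSeries_mem_Ol {p : PowerSeries K} (hp : ∀ n, v (PowerSeries.coeff n p) ≤ 1) :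
    HahnSeries.ofPowerSeries ℤ K p ∈ Ol v := by
  intro k
  rcases le_or_gt 0 k with hk | hk
  · lift k to ℕ using hk
    rw [HahnSeries.ofPowerSeries_apply_coeff]
    exact hp k
  · rw [ofPowerSeries_coeff_of_neg _ hk, map_zero]
    exact zero_le_one

/-! ### Fields generated by integral series -/

theorem exists_pow_mul_le_one (hϖ : IsUnif v ϖ) (c : K) : ∃ n : ℕ, v (ϖ ^ n * c) ≤ 1 := by
  by_cases hc : c = 0
  · exact ⟨0, by rw [hc, mul_zero, map_zero]; exact zero_le_one⟩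
  obtain ⟨n, hn⟩ := hϖ.exists_pow_le c⁻¹ (inv_ne_zero hc)
  refine ⟨n, ?_⟩
  have hvc : v c ≠ 0 := by rwa [Ne, Valuation.zero_iff]
  rw [map_mul, map_pow]
  calc v ϖ ^ n * v c ≤ v c⁻¹ * v c := mul_le_mul_left hn _
    _ = 1 := by rw [map_inv₀, inv_mul_cancel₀ hvc]

theorem cL_pow_mem_Ol (hϖ : IsUnif v ϖ) (n : ℕ) : cL ϖ ^ n ∈ Ol v :=
  (Ol v).pow_mem (cL_mem_Ol hϖ) n

theorem exists_pow_mul_mem_Ol (hϖ : IsUnif v ϖ) {G : Set (LaurentSeries K)}
    (hG : G ⊆ (Ol v : Set (LaurentSeries K))) {r : LaurentSeries K}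
    (hr : r ∈ Algebra.adjoin K G) : ∃ n : ℕ, cL ϖ ^ n * r ∈ Ol v := by
  induction hr using Algebra.adjoin_induction with
  | mem x hx => exact ⟨0, by rw [pow_zero, one_mul]; exact hG hx⟩
  | algebraMap c =>
    obtain ⟨n, hn⟩ := exists_pow_mul_le_one hϖ c
    refine ⟨n, ?_⟩
    have h : cL ϖ ^ n * algebraMap K (LaurentSeries K) c =
        algebraMap K (LaurentSeries K) (ϖ ^ n * c) := by
      rw [map_mul, map_pow]
    rw [h]
    exact algebraMap_mem_Ol hn
  | add x y _ _ hx hy =>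
    obtain ⟨m, hmx⟩ := hx
    obtain ⟨n, hny⟩ := hy
    refine ⟨m + n, ?_⟩
    have h : cL ϖ ^ (m + n) * (x + y) =
        cL ϖ ^ n * (cL ϖ ^ m * x) + cL ϖ ^ m * (cL ϖ ^ n * y) := by
      rw [_root_.pow_add]
      ring
    rw [h]
    exact (Ol v).add_mem ((Ol v).mul_mem (cL_pow_mem_Ol hϖ n) hmx)
      ((Ol v).mul_mem (cL_pow_mem_Ol hϖ m) hny)
  | mul x y _ _ hx hy =>
    obtain ⟨m, hmx⟩ := hx
    obtain ⟨n, hny⟩ := hy
    refine ⟨m + n, ?_⟩
    have h : cL ϖ ^ (m + n) * (x * y) = (cL ϖ ^ m * x) * (cL ϖ ^ n * y) := by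
      rw [_root_.pow_add]
      ring
    rw [h]
    exact (Ol v).mul_mem hmx hny

/-- **A subfield of `K((q))` generated over `K` by `v`-integral series consists of quotients of
`v`-integral elements.** -/
theorem isRatio_adjoin (hϖ : IsUnif v ϖ) {G : Set (LaurentSeries K)}
    (hG : G ⊆ (Ol v : Set (LaurentSeries K))) :
    IsRatio v (IntermediateField.adjoin K G) := by
  intro x hx
  rw [IntermediateField.mem_adjoin_iff_div] at hx
  obtain ⟨r, hr, s, hs, rfl⟩ := hx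
  set F := IntermediateField.adjoin K G with hFdef
  by_cases hs0 : s = 0
  · exact ⟨0, 1, F.zero_mem, (Ol v).zero_mem, F.one_mem, (Ol v).one_mem, one_ne_zero,
      by rw [hs0, div_zero, zero_mul]⟩
  have hrF : r ∈ F := IntermediateField.algebra_adjoin_le_adjoin K G hr
  have hsF : s ∈ F := IntermediateField.algebra_adjoin_le_adjoin K G hs
  obtain ⟨m, hmr⟩ := exists_pow_mul_mem_Ol hϖ hG hr
  obtain ⟨n, hns⟩ := exists_pow_mul_mem_Ol hϖ hG hs
  have hl0 : cL ϖ ≠ 0 := cL_ne_zero hϖ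
  have hlF : ∀ k : ℕ, cL ϖ ^ k ∈ F := fun k => F.pow_mem (F.algebraMap_mem ϖ) k
  refine ⟨cL ϖ ^ n * (cL ϖ ^ m * r), cL ϖ ^ m * (cL ϖ ^ n * s),
    F.mul_mem (hlF n) (F.mul_mem (hlF m) hrF), (Ol v).mul_mem (cL_pow_mem_Ol hϖ n) hmr,
    F.mul_mem (hlF m) (F.mul_mem (hlF n) hsF), (Ol v).mul_mem (cL_pow_mem_Ol hϖ m) hns,
    mul_ne_zero (pow_ne_zero m hl0) (mul_ne_zero (pow_ne_zero n hl0) hs0), ?_⟩
  field_simp

/-! ### The substitution `q ↦ u q` -/

theorem v_units_zpow {u : Kˣ} (hu : v (u : K) = 1) (k : ℤ) : v (((u ^ k : Kˣ) : K)) = 1 := by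
  rw [Units.val_zpow_eq_zpow_val, map_zpow₀, hu, one_zpow]

theorem mem_Ol_rescaleU {u : Kˣ} (hu : v (u : K) = 1) {f : LaurentSeries K} (hf : f ∈ Ol v) :
    rescaleU u f ∈ Ol v :=
  mem_Ol_of_coeff_mul (fun k => ((u ^ k : Kˣ) : K)) (v_units_zpow hu)
    (fun k => coeff_rescaleU u f k) hf

theorem isPrim_rescaleU {u : Kˣ} (hu : v (u : K) = 1) {f : LaurentSeries K} (hf : IsPrim v f) :
    IsPrim v (rescaleU u f) :=
  isPrim_of_coeff_mul (fun k => ((u ^ k : Kˣ) : K)) (v_units_zpow hu)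
    (fun k => coeff_rescaleU u f k) hf

/-- `q ↦ u q` preserves the Gauss ring of every field which it preserves -/
theorem inOw_rescaleU {F : IntermediateField K (LaurentSeries K)} {u : Kˣ}
    (hu : v (u : K) = 1) (hF : ∀ x ∈ F, rescaleU u x ∈ F) {x : LaurentSeries K}
    (hx : InOw v F x) : InOw v F (rescaleU u x) :=
  InOw.map (rescaleU u : LaurentSeries K →+* LaurentSeries K) hF
    (fun _ h => mem_Ol_rescaleU hu h) (fun _ h => isPrim_rescaleU hu h) hx

theorem v_units_inv {u : Kˣ} (hu : v (u : K) = 1) : v ((u⁻¹ : Kˣ) : K) = 1 := by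
  have := v_units_zpow hu (-1)
  rwa [zpow_neg_one] at this

theorem inOw_rescaleU_iff {F : IntermediateField K (LaurentSeries K)} {u : Kˣ}
    (hu : v (u : K) = 1) (hF : ∀ x ∈ F, rescaleU u x ∈ F)
    (hF' : ∀ x ∈ F, rescaleU u⁻¹ x ∈ F) {x : LaurentSeries K} :
    InOw v F (rescaleU u x) ↔ InOw v F x := by
  refine ⟨fun h => ?_, inOw_rescaleU hu hF⟩
  have h1 := inOw_rescaleU (v_units_inv hu) hF' h
  rwa [← rescaleU_mul, inv_mul_cancel, rescaleU_one] at h1

/-! ### Roots of unity -/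

theorem v_eq_one_of_pow_eq_one {x : K} {n : ℕ} (hn : n ≠ 0) (hx : x ^ n = 1) : v x = 1 := by
  have h1 : v x ^ n = 1 := by rw [← map_pow, hx, map_one]
  rcases lt_trichotomy (v x) 1 with h | h | h
  · exact absurd h1 (ne_of_lt (pow_lt_one₀ zero_le h hn))
  · exact h
  · exact absurd h1 (ne_of_gt (one_lt_pow₀ h hn))

variable {M : ℕ} [NeZero M] {ζ : K}

theorem v_zpw (hζ : ζ ^ M = 1) (s : ZMod M) : v (zpw M ζ s) = 1 := by
  apply v_eq_one_of_pow_eq_one (NeZero.ne M)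
  unfold zpw
  rw [← pow_mul, mul_comm, pow_mul, hζ, one_pow]

theorem v_one_sub_le (hζ : ζ ^ M = 1) (s : ZMod M) : v (1 - zpw M ζ s) ≤ 1 := by
  refine (v.map_sub _ _).trans (max_le ?_ ?_)
  · rw [map_one]
  · rw [v_zpw hζ]

/-- **`1 - ζ^s` is a unit when `M` is**: `∏_{1 ≤ k < M} (1 - ζ^k) = M`. -/
theorem v_one_sub_zpw (hM : v (M : K) = 1) (hζ : IsPrimitiveRoot ζ M) (s : ZMod M)
    (hs : s ≠ 0) : v (1 - zpw M ζ s) = 1 := by
  obtain ⟨n, hn⟩ : ∃ n, M = n + 1 := Nat.exists_eq_succ_of_ne_zero (NeZero.ne M)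
  have hζ' : IsPrimitiveRoot ζ (n + 1) := hn ▸ hζ
  have hprod := hζ'.prod_one_sub_pow_eq_order
  have hle : ∀ k ∈ Finset.range n, v (1 - ζ ^ (k + 1)) ≤ 1 := by
    intro k _
    refine (v.map_sub _ _).trans (max_le ?_ ?_)
    · rw [map_one]
    · rw [map_pow, v_eq_one_of_pow_eq_one (NeZero.ne M) hζ.pow_eq_one, one_pow]
  have hv : ∏ k ∈ Finset.range n, v (1 - ζ ^ (k + 1)) = 1 := by
    rw [← map_prod, hprod]
    have : ((n : K) + 1) = ((M : ℕ) : K) := by rw [hn]; push_cast; rfl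
    rw [this, hM]
  have hall := (Finset.prod_eq_one_iff_of_le_one' hle).1 hv
  have hval : s.val ≠ 0 := fun h => hs ((ZMod.val_eq_zero s).1 h)
  obtain ⟨k, hk⟩ := Nat.exists_eq_succ_of_ne_zero hval
  have hkn : k ∈ Finset.range n := by
    rw [Finset.mem_range]
    have := ZMod.val_lt s
    omega
  have := hall k hkn
  unfold zpw
  rw [hk]
  exact this

/-! ### The generators of `FFull M ζ` are integral -/

theorem qExpand_mem_Ol (N : ℕ) [NeZero N] {f : LaurentSeries K} (hf : f ∈ Ol v) :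
    qExpand K N f ∈ Ol v := by
  intro k
  by_cases hk : (N : ℤ) ∣ k
  · obtain ⟨m, rfl⟩ := hk
    rw [qExpand_coeff_mul]
    exact hf m
  · rw [qExpand_coeff_of_not_dvd N f hk, map_zero]
    exact zero_le_one

theorem jqModC_mem_Ol (v : Valuation K Γ₀) : jqModC K ∈ Ol v := by
  rw [← coeffMap_jqModC (Int.castRingHom K)]
  exact coeffMap_int_mem_Ol v _

theorem jM_mem_Ol (v : Valuation K Γ₀) (M : ℕ) [NeZero M] : jM K M ∈ Ol v :=
  qExpand_mem_Ol M (jqModC_mem_Ol v)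

theorem wNorm_mem_Ol (v : Valuation K Γ₀) : wNorm K ∈ Ol v := by
  have h : wNorm K = coeffMap (Int.castRingHom K) (wNorm ℤ) := by
    change HahnSeries.single (-1 : ℤ) (1 : K) *
        HahnSeries.ofPowerSeries ℤ K (wNum.map (Int.castRingHom K)) =
      coeffMap (Int.castRingHom K) (HahnSeries.single (-1 : ℤ) (1 : ℤ) *
        HahnSeries.ofPowerSeries ℤ ℤ (wNum.map (Int.castRingHom ℤ)))
    have hc : (wNum.map (Int.castRingHom ℤ)).map (Int.castRingHom K) =
        wNum.map (Int.castRingHom K) := by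
      ext n
      simp
    have h1 : (Int.castRingHom K) (1 : ℤ) = 1 := map_one _
    rw [map_mul, coeffMap_single, h1, ModularCurve.coeffMap_ofPowerSeries, hc]
  rw [h]
  exact coeffMap_int_mem_Ol v _

theorem v_xterm_le (hζ : ζ ^ M = 1) (w : Vec M) (n d : ℕ) : v (xterm M ζ w n d) ≤ 1 := by
  unfold xterm
  rw [map_mul]
  refine mul_le_one' (map_natCast_le_one v _) ?_
  refine (v.map_sub _ _).trans (max_le ((v.map_add _ _).trans (max_le ?_ ?_)) ?_)
  · split_ifs
    · rw [v_zpw hζ]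
    · rw [map_zero]; exact zero_le_one
  · split_ifs
    · rw [v_zpw hζ]
    · rw [map_zero]; exact zero_le_one
  · rw [map_mul]
    refine mul_le_one' ?_ ?_
    · have : (2 : K) = ((2 : ℕ) : K) := by norm_num
      rw [this]
      exact map_natCast_le_one v 2
    · split_ifs
      · rw [map_one]
      · rw [map_zero]; exact zero_le_one

theorem v_xcoef_le (hζ : ζ ^ M = 1) (w : Vec M) (n : ℕ) : v (xcoef M ζ w n) ≤ 1 := by
  unfold xcoef
  exact v.map_sum_le fun d _ => v_xterm_le hζ w n d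

theorem v_x0_le (hζ : ζ ^ M = 1) (h1 : ∀ s : ZMod M, s ≠ 0 → v (1 - zpw M ζ s) = 1)
    {w : Vec M} (hw : w ≠ 0) : v (x0 M ζ w) ≤ 1 := by
  unfold x0
  split_ifs with h0
  · have hw1 : w 1 ≠ 0 := by
      intro h
      apply hw
      funext i
      fin_cases i
      · exact h0
      · exact h
    rw [map_div₀, map_pow, v_zpw hζ, h1 _ hw1, one_pow, div_one]
  · rw [map_zero]
    exact zero_le_one

theorem wpser_coeff_le (hζ : ζ ^ M = 1) (h1 : ∀ s : ZMod M, s ≠ 0 → v (1 - zpw M ζ s) = 1)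
    {w : Vec M} (hw : w ≠ 0) (n : ℕ) : v (PowerSeries.coeff n (wpser M ζ w)) ≤ 1 := by
  unfold wpser
  rw [map_add]
  refine (v.map_add _ _).trans (max_le ?_ ?_)
  · have h12 : (12 : PowerSeries K) = PowerSeries.C ((12 : ℕ) : K) := by
      rw [map_natCast]
      norm_num
    rw [h12, PowerSeries.coeff_C_mul, map_mul]
    refine mul_le_one' (map_natCast_le_one v 12) ?_
    by_cases hn : n = 0
    · subst hn
      rw [coeff_Xser_zero]
      exact v_x0_le hζ h1 hw
    · rw [coeff_Xser_of_ne_zero _ _ _ hn]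
      exact v_xcoef_le hζ w n
  · rw [PowerSeries.coeff_one]
    split_ifs
    · rw [map_one]
    · rw [map_zero]; exact zero_le_one

/-- **the Fricke functions `f_w` are `v`-integral** -/
theorem fF_mem_Ol (hζ : ζ ^ M = 1) (h1 : ∀ s : ZMod M, s ≠ 0 → v (1 - zpw M ζ s) = 1)
    {w : Vec M} (hw : w ≠ 0) : fF M ζ w ∈ Ol v := by
  unfold fF
  exact (Ol v).mul_mem (qExpand_mem_Ol M (wNorm_mem_Ol v))
    (ofPowerSeries_mem_Ol (wpser_coeff_le hζ h1 hw))

theorem gens_subset_Ol (hζ : ζ ^ M = 1) (h1 : ∀ s : ZMod M, s ≠ 0 → v (1 - zpw M ζ s) = 1) :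
    gens M ζ ⊆ (Ol v : Set (LaurentSeries K)) := by
  rintro x (hx | ⟨w, hw, rfl⟩)
  · rw [Set.mem_singleton_iff] at hx
    rw [hx]
    exact jM_mem_Ol v M
  · exact fF_mem_Ol hζ h1 hw

/-- **`FFull M ζ` consists of quotients of `v`-integral elements**, so that its Gauss valuation
ring `GaussDVR.Ow v (FFull M ζ) hϖ _` is defined. -/
theorem isRatio_FFull (hϖ : IsUnif v ϖ) (hζ : ζ ^ M = 1)
    (h1 : ∀ s : ZMod M, s ≠ 0 → v (1 - zpw M ζ s) = 1) : IsRatio v (FFull M ζ) := by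
  rw [FFull_eq_adjoin]
  exact isRatio_adjoin hϖ (gens_subset_Ol hζ h1)

theorem isRatio_FFull' (hϖ : IsUnif v ϖ) (hM : v (M : K) = 1) (hζ : IsPrimitiveRoot ζ M) :
    IsRatio v (FFull M ζ) :=
  isRatio_FFull hϖ hζ.pow_eq_one (v_one_sub_zpw hM hζ)

/-! ### `q ↦ ζ q` preserves the Gauss ring of `FFull M ζ` -/

theorem inOw_rescaleU_FFull {u : Kˣ} (hu : u ^ M = 1) {x : LaurentSeries K} :
    InOw v (FFull M (u : K)) (rescaleU u x) ↔ InOw v (FFull M (u : K)) x := by
  have hvu : v (u : K) = 1 := v_eq_one_of_pow_eq_one (NeZero.ne M) (units_pow_eq_one hu)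
  have hu' : (u⁻¹) ^ M = 1 := by rw [inv_pow, hu, inv_one]
  refine inOw_rescaleU_iff hvu (fun x hx => rescaleU_mem_FFull hu hx) (fun x hx => ?_)
  -- `q ↦ u⁻¹ q` preserves `FFull M u` as well: it is the `(M-1)`-st power of `q ↦ u q`
  have hpow : ∀ n : ℕ, ∀ y ∈ FFull M (u : K), rescaleU (u ^ n) y ∈ FFull M (u : K) := by
    intro n
    induction n with
    | zero => intro y hy; rwa [pow_zero, rescaleU_one]
    | succ n ih =>
      intro y hy
      rw [pow_succ, rescaleU_mul]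
      exact ih _ (rescaleU_mem_FFull hu hy)
  have hinv : u⁻¹ = u ^ (M - 1) := by
    have hM1 : M - 1 + 1 = M := Nat.sub_add_cancel (Nat.one_le_iff_ne_zero.2 (NeZero.ne M))
    rw [inv_eq_iff_mul_eq_one, ← pow_succ', hM1, hu]
  rw [hinv]
  exact hpow _ x hx

end Fermat.Agent.S48.B.Igusa.U1.Ratio

end
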