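/-
PROJECT D (S48, Deligne–Serre), PART B, block B2 (Igusa for `X₁(M)`), brick U1, file `Setup`
(helper23): THE GAUSS RING OF THE FULL LEVEL `M` FIELD AND ITS RESTRICTIONS.

`K` a field, `W` a valuation subring of `K` with uniformiser `ℓ` (`IsUnif W.valuation ℓ`), `ζ : K`.
`𝔸 = gaussA` is helper25's Gauss valuation ring `GaussDVR.Ow W.valuation (FFull M ζ)` of helper12's
`FFull M ζ = K(j(q^M), f_v)`.

* `KJ M = K(j(q^M))` inside `K((q))`; `rel M ζ E hE` : an intermediate field `E` of `K((q))/K`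
  containing `K(j(q^M))`, cut out inside `FFull M ζ` as an intermediate field of
  `FFull M ζ / K0 M ζ` (the shape helper3's `Val/Decomp` consumes); `relEquiv`;
* `gaussOn E hEF = 𝔸 ∩ E` for `E ≤ FFull M ζ`;
* `isPrim_aeval_jq`, `isPrim_aeval_qExpand_jq` (**lemma (P)**): a polynomial in `j(q^N)` whose
  coefficients are `v`-integral, one of them a unit, is a PRIMITIVE series;
* `IsVert.comap` : Gauss-verticality restricts along `K`-algebra homomorphisms;
* `isVert_of_agree` : a valuation subring of `E ≤ FFull M ζ` which agrees with `𝔸` on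
  `K(j(q^N))` is Gauss-vertical with respect to `j(q^N)`; `isVert_gaussOn`.
-/
import Mathlib
import Fermat.Agent.S28.Step.Orders
import Fermat.Agent.S48.B.Igusa.GaussBase
import Fermat.Agent.S48.B.Igusa.U1.Ratio

set_option autoImplicit false

noncomputable section

namespace Fermat.Agent.S48.B.Igusa.U1.Setup

open HahnSeries ModularCurve IntermediateField Polynomial
open Fermat.Agent.S48.B.Igusa.GaussDVR Fermat.Agent.S48.B.Igusa.Full.Defs
open Fermat.Agent.S48.B.Igusa.Full Fermat.Agent.S48.B.Igusa.U1.Ratio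
open Fermat.Agent.S48.B.Igusa.GaussBase (IsVert)

variable {K : Type*} [Field K]

/-! ### Absolute and relative intermediate fields -/

section Rel

variable (M : ℕ) [NeZero M] (ζ : K)

/-- `K(j(q^M))` inside `K((q))` -/
def KJ : IntermediateField K (LaurentSeries K) := IntermediateField.adjoin K {jM K M}

theorem jM_mem_KJ : jM K M ∈ KJ (K := K) M :=
  IntermediateField.subset_adjoin K _ (Set.mem_singleton _)

/-- the elements of the base `K0 M ζ` are series in `K(j(q^M))` -/
theorem coe_mem_KJ (k : ↥(K0 M ζ)) : (((k : ↥(FFull M ζ)) : LaurentSeries K)) ∈ KJ (K := K) M :=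
  (GalPerm.mem_base_iff (K := K) (y := yF M ζ) none (k : ↥(FFull M ζ))).1 k.2

theorem mem_K0_of_coe_mem_KJ {x : ↥(FFull M ζ)} (hx : (x : LaurentSeries K) ∈ KJ (K := K) M) :
    x ∈ K0 M ζ :=
  (GalPerm.mem_base_iff (K := K) (y := yF M ζ) none x).2 hx

theorem KJ_le_FFull : KJ (K := K) M ≤ FFull M ζ := by
  unfold KJ
  rw [IntermediateField.adjoin_le_iff]
  intro x hx
  rw [Set.mem_singleton_iff] at hx
  rw [hx]
  exact jM_mem M ζ

/-- an intermediate field `E ⊇ K(j(q^M))` of `K((q)) / K`, cut out inside `FFull M ζ`, as an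
intermediate field of `FFull M ζ / K0 M ζ` -/
def rel (E : IntermediateField K (LaurentSeries K)) (hE : KJ (K := K) M ≤ E) :
    IntermediateField ↥(K0 M ζ) ↥(FFull M ζ) where
  carrier := {x | (x : LaurentSeries K) ∈ E}
  mul_mem' := fun {a b} ha hb => E.mul_mem ha hb
  one_mem' := E.one_mem
  add_mem' := fun {a b} ha hb => E.add_mem ha hb
  zero_mem' := E.zero_mem
  algebraMap_mem' := fun k => hE (coe_mem_KJ M ζ k)
  inv_mem' := fun x hx => by
    show (((x⁻¹ : ↥(FFull M ζ)) : ↥(FFull M ζ)) : LaurentSeries K) ∈ E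
    rw [IntermediateField.coe_inv]
    exact E.inv_mem hx

variable {M ζ}

theorem mem_rel_iff {E : IntermediateField K (LaurentSeries K)} {hE : KJ (K := K) M ≤ E}
    {x : ↥(FFull M ζ)} : x ∈ rel M ζ E hE ↔ (x : LaurentSeries K) ∈ E := Iff.rfl

/-- `rel E ≃ E` when `E ≤ FFull M ζ` -/
def relEquiv {E : IntermediateField K (LaurentSeries K)} (hE : KJ (K := K) M ≤ E)
    (hEF : E ≤ FFull M ζ) : ↥(rel M ζ E hE) ≃+* ↥E where
  toFun x := ⟨((x : ↥(FFull M ζ)) : LaurentSeries K), x.2⟩
  invFun y := ⟨⟨(y : LaurentSeries K), hEF y.2⟩, y.2⟩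
  left_inv x := by
    apply Subtype.ext
    apply Subtype.ext
    rfl
  right_inv y := by
    apply Subtype.ext
    rfl
  map_mul' x y := by
    apply Subtype.ext
    rfl
  map_add' x y := by
    apply Subtype.ext
    rfl

theorem coe_relEquiv {E : IntermediateField K (LaurentSeries K)} (hE : KJ (K := K) M ≤ E)
    (hEF : E ≤ FFull M ζ) (x : ↥(rel M ζ E hE)) :
    ((relEquiv hE hEF x : ↥E) : LaurentSeries K) = ((x : ↥(FFull M ζ)) : LaurentSeries K) := rfl

theorem coe_relEquiv_symm {E : IntermediateField K (LaurentSeries K)} (hE : KJ (K := K) M ≤ E)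
    (hEF : E ≤ FFull M ζ) (y : ↥E) :
    ((((relEquiv hE hEF).symm y : ↥(rel M ζ E hE)) : ↥(FFull M ζ)) : LaurentSeries K) =
      (y : LaurentSeries K) := rfl

end Rel

/-! ### Lemma (P): polynomials in `j(q^N)` with a unit coefficient are primitive series -/

section Prim

variable {Γ₀ : Type*} [LinearOrderedCommGroupWithZero Γ₀] {v : Valuation K Γ₀}

open Fermat.Agent.S28.StepDeg in
theorem leadingCoeff_jqModC_pow (i : ℕ) : ((jqModC K) ^ i).leadingCoeff = 1 := by
  induction i with
  | zero => rw [pow_zero, HahnSeries.leadingCoeff_one]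
  | succ i ih =>
    have h1 : (jqModC K).leadingCoeff = 1 := by
      rw [leadingCoeff_eq, order_jqModC, coeff_jqModC_neg_one]
    rw [pow_succ, HahnSeries.leadingCoeff_mul, ih, h1, mul_one]

open Fermat.Agent.S28.StepDeg in
theorem coeff_jqModC_pow_self (i : ℕ) : ((jqModC K) ^ i).coeff (-(i : ℤ)) = 1 := by
  have h := leadingCoeff_jqModC_pow (K := K) i
  rwa [leadingCoeff_eq, order_jqModC_pow] at h

open Fermat.Agent.S28.StepDeg in
theorem coeff_jqModC_pow_of_lt {i j : ℕ} (hij : i < j) :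
    ((jqModC K) ^ i).coeff (-(j : ℤ)) = 0 := by
  apply coeff_eq_zero_of_lt_order
  rw [order_jqModC_pow]
  omega

theorem jqModC_pow_mem_Ol (v : Valuation K Γ₀) (i : ℕ) : (jqModC K) ^ i ∈ Ol v :=
  (Ol v).pow_mem (jqModC_mem_Ol v) i

/-- **Lemma (P)**: a polynomial in `j(q)` with `v`-integral coefficients, one of them a unit, is a
primitive series. -/
theorem isPrim_aeval_jq (p : K[X]) (hp : ∀ i, v (p.coeff i) ≤ 1) (hu : ∃ i, v (p.coeff i) = 1) :
    IsPrim v (Polynomial.aeval (jqModC K) p) := by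
  classical
  have hsum : Polynomial.aeval (jqModC K) p =
      ∑ i ∈ Finset.range (p.natDegree + 1),
        algebraMap K (LaurentSeries K) (p.coeff i) * (jqModC K) ^ i := by
    rw [Polynomial.aeval_eq_sum_range]
    refine Finset.sum_congr rfl fun i _ => ?_
    rw [Algebra.smul_def]
  have hmem : ∀ i, algebraMap K (LaurentSeries K) (p.coeff i) * (jqModC K) ^ i ∈ Ol v :=
    fun i => (Ol v).mul_mem (algebraMap_mem_Ol (hp i)) (jqModC_pow_mem_Ol v i)
  refine ⟨?_, ?_⟩
  · rw [hsum]
    exact (Ol v).sum_mem fun i _ => hmem i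
  -- the largest index with a unit coefficient
  set S : Finset ℕ := (Finset.range (p.natDegree + 1)).filter fun i => v (p.coeff i) = 1 with hS
  have hSne : S.Nonempty := by
    obtain ⟨i, hi⟩ := hu
    refine ⟨i, ?_⟩
    rw [hS, Finset.mem_filter, Finset.mem_range]
    refine ⟨?_, hi⟩
    by_contra hlt
    rw [not_lt] at hlt
    have : p.coeff i = 0 := Polynomial.coeff_eq_zero_of_natDegree_lt (by omega)
    rw [this, map_zero] at hi
    exact zero_ne_one hi
  set i₀ := S.max' hSne with hi₀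
  have hi₀S : i₀ ∈ S := Finset.max'_mem S hSne
  have hi₀r : i₀ ∈ Finset.range (p.natDegree + 1) := (Finset.mem_filter.mp hi₀S).1
  have hi₀u : v (p.coeff i₀) = 1 := (Finset.mem_filter.mp hi₀S).2
  have hgt : ∀ i ∈ Finset.range (p.natDegree + 1), i₀ < i → v (p.coeff i) < 1 := by
    intro i hi hlt
    refine lt_of_le_of_ne (hp i) fun h1 => ?_
    have : i ∈ S := by
      rw [hS, Finset.mem_filter]
      exact ⟨hi, h1⟩
    exact absurd (Finset.le_max' S i this) (not_le.mpr hlt)
  refine ⟨-(i₀ : ℤ), ?_⟩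
  rw [hsum, HahnSeries.coeff_sum, ← Finset.add_sum_erase _ _ hi₀r]
  have hmain : v ((algebraMap K (LaurentSeries K) (p.coeff i₀) * (jqModC K) ^ i₀).coeff
      (-(i₀ : ℤ))) = 1 := by
    rw [coeff_algebraMap_mul, coeff_jqModC_pow_self, mul_one, hi₀u]
  have hrest : v (∑ i ∈ (Finset.range (p.natDegree + 1)).erase i₀,
      (algebraMap K (LaurentSeries K) (p.coeff i) * (jqModC K) ^ i).coeff (-(i₀ : ℤ))) < 1 := by
    refine v.map_sum_lt one_ne_zero fun i hi => ?_
    obtain ⟨hne, hir⟩ := Finset.mem_erase.mp hi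
    rw [coeff_algebraMap_mul]
    rcases lt_or_gt_of_ne hne with hlt | hlt
    · rw [coeff_jqModC_pow_of_lt hlt, mul_zero, map_zero]
      exact zero_lt_one
    · rw [map_mul]
      calc v (p.coeff i) * v (((jqModC K) ^ i).coeff (-(i₀ : ℤ)))
          ≤ v (p.coeff i) * 1 := mul_le_mul_right (jqModC_pow_mem_Ol v i _) _
        _ = v (p.coeff i) := mul_one _
        _ < 1 := hgt i hir hlt
  rw [Valuation.map_add_eq_of_lt_left _ (by rw [hmain]; exact hrest), hmain]

theorem isPrim_qExpand (N : ℕ) [NeZero N] {f : LaurentSeries K} (hf : IsPrim v f) :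
    IsPrim v (qExpand K N f) := by
  refine ⟨qExpand_mem_Ol N hf.1, ?_⟩
  obtain ⟨k, hk⟩ := hf.2
  exact ⟨(N : ℤ) * k, by rw [qExpand_coeff_mul, hk]⟩

/-- **Lemma (P)** for `j(q^N)` -/
theorem isPrim_aeval_qExpand_jq (N : ℕ) [NeZero N] (p : K[X]) (hp : ∀ i, v (p.coeff i) ≤ 1)
    (hu : ∃ i, v (p.coeff i) = 1) :
    IsPrim v (Polynomial.aeval (qExpand K N (jqModC K)) p) := by
  have h : Polynomial.aeval (qExpand K N (jqModC K)) p =
      qExpand K N (Polynomial.aeval (jqModC K) p) := by
    have := Polynomial.aeval_algHom_apply (qExpandAlgHomC K N) (jqModC K) p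
    exact this
  rw [h]
  exact isPrim_qExpand N (isPrim_aeval_jq p hp hu)

/-- the inverse of a primitive element of `F` is in the Gauss ring of `F` -/
theorem inOw_inv_of_isPrim {F : IntermediateField K (LaurentSeries K)} {b : LaurentSeries K}
    (hbF : b ∈ F) (hb : IsPrim v b) : InOw v F b⁻¹ :=
  ⟨1, b, F.one_mem, (Ol v).one_mem, hbF, hb, inv_mul_cancel₀ hb.ne_zero⟩

end Prim

/-! ### Gauss-verticality: restriction and agreement (generic) -/

section Vert

variable {L F F' : Type*} [Field L] [Field F] [Field F'] [Algebra L F] [Algebra L F']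
  {W : ValuationSubring L} {ℓ : ℕ}

/-- Gauss-verticality restricts along `L`-algebra homomorphisms -/
theorem IsVert.comap (f : F →ₐ[L] F') {x : F} {V' : ValuationSubring F'}
    (h : IsVert W ℓ (f x) V') : IsVert W ℓ x (V'.comap (f : F →+* F')) := by
  obtain ⟨h1, h2, h3, h4⟩ := h
  refine ⟨fun c => ?_, h2, fun hmem => h3 ?_, fun s hs => ?_⟩
  · rw [ValuationSubring.mem_comap]
    have : (f : F →+* F') (algebraMap L F (c : L)) = algebraMap L F' (c : L) := f.commutes _
    rw [this]
    exact h1 c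
  · rw [ValuationSubring.mem_comap] at hmem
    have : (f : F →+* F') (((ℓ : ℕ) : F))⁻¹ = (((ℓ : ℕ) : F'))⁻¹ := by
      rw [map_inv₀, map_natCast]
    rwa [this] at hmem
  · rw [ValuationSubring.mem_comap]
    have : (f : F →+* F') (Polynomial.aeval x (s.map W.subtype))⁻¹ =
        (Polynomial.aeval (f x) (s.map W.subtype))⁻¹ := by
      rw [map_inv₀]
      congr 1
      exact (Polynomial.aeval_algHom_apply f x (s.map W.subtype)).symm
    rw [this]
    exact h4 s hs

/-- a valuation subring which agrees with a Gauss-vertical one on a subfield containing `x` is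
Gauss-vertical -/
theorem isVert_of_agree {x : F} {V V₀ : ValuationSubring F} (S : IntermediateField L F)
    (hxS : x ∈ S) (hag : ∀ y ∈ S, y ∈ V ↔ y ∈ V₀) (h : IsVert W ℓ x V₀) : IsVert W ℓ x V := by
  obtain ⟨h1, h2, h3, h4⟩ := h
  refine ⟨fun c => (hag _ (S.algebraMap_mem _)).2 (h1 c), (hag _ hxS).2 h2,
    fun hmem => h3 ((hag _ (S.inv_mem (IntermediateField.natCast_mem S ℓ))).1 hmem), fun s hs => ?_⟩
  refine (hag _ (S.inv_mem ?_)).2 (h4 s hs)
  have h5 := Polynomial.aeval_algHom_apply S.val (⟨x, hxS⟩ : ↥S) (s.map W.subtype)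
  have h6 : Polynomial.aeval x (s.map W.subtype) =
      ((Polynomial.aeval (⟨x, hxS⟩ : ↥S) (s.map W.subtype) : ↥S) : F) := h5
  rw [h6]
  exact (Polynomial.aeval (⟨x, hxS⟩ : ↥S) (s.map W.subtype)).2

end Vert

/-! ### The Gauss ring of `FFull M ζ` and its restrictions -/

section Gauss

variable {W : ValuationSubring K} {ℓ : ℕ} {M : ℕ} [NeZero M] {ζ : K}
  (hϖ : IsUnif W.valuation (((ℓ : ℕ) : K))) (hF : IsRatio W.valuation (FFull M ζ))

/-- the Gauss valuation ring of `FFull M ζ` -/
abbrev gaussA : ValuationSubring ↥(FFull M ζ) := Ow W.valuation (FFull M ζ) hϖ hF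

/-- its restriction to `E ≤ FFull M ζ` -/
def gaussOn (E : IntermediateField K (LaurentSeries K)) (hEF : E ≤ FFull M ζ) :
    ValuationSubring ↥E :=
  (gaussA hϖ hF).comap
    ((IntermediateField.inclusion hEF : ↥E →ₐ[K] ↥(FFull M ζ)) : ↥E →+* ↥(FFull M ζ))

theorem mem_gaussOn_iff {E : IntermediateField K (LaurentSeries K)} {hEF : E ≤ FFull M ζ}
    {y : ↥E} :
    y ∈ gaussOn hϖ hF E hEF ↔ InOw W.valuation (FFull M ζ) (y : LaurentSeries K) := Iff.rfl

theorem coe_aeval_intermediate (E : IntermediateField K (LaurentSeries K)) (x : ↥E) (p : K[X]) :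
    ((Polynomial.aeval x p : ↥E) : LaurentSeries K) =
      Polynomial.aeval (x : LaurentSeries K) p :=
  (Polynomial.aeval_algHom_apply E.val x p).symm

/-- **the restrictions of the Gauss ring are Gauss-vertical** with respect to `j(q^N)` -/
theorem isVert_gaussOn (E : IntermediateField K (LaurentSeries K)) (hEF : E ≤ FFull M ζ)
    (N : ℕ) [NeZero N] (x : ↥E) (hx : (x : LaurentSeries K) = qExpand K N (jqModC K)) :
    IsVert W ℓ x (gaussOn hϖ hF E hEF) := by
  refine ⟨fun c => ?_, ?_, fun hmem => ?_, fun s hs => ?_⟩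
  · rw [mem_gaussOn_iff]
    exact (inOw_algebraMap_iff (F := FFull M ζ)).2 (W.valuation_le_one c)
  · rw [mem_gaussOn_iff]
    refine inOw_of_mem (hEF x.2) ?_
    rw [hx]
    exact qExpand_mem_Ol N (jqModC_mem_Ol W.valuation)
  · rw [mem_gaussOn_iff] at hmem
    have h1 : ((((((ℓ : ℕ) : ↥E))⁻¹ : ↥E)) : LaurentSeries K) = (cL (((ℓ : ℕ) : K)))⁻¹ := by
      rw [IntermediateField.coe_inv]
      congr 1
      show _ = algebraMap K (LaurentSeries K) (((ℓ : ℕ) : K))
      rw [map_natCast]
      exact map_natCast E.val ℓ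
    rw [h1] at hmem
    exact not_inOw_inv_cL hϖ hmem
  · rw [mem_gaussOn_iff, IntermediateField.coe_inv, coe_aeval_intermediate, hx]
    refine inOw_inv_of_isPrim ?_ ?_
    · rw [← hx, ← coe_aeval_intermediate]
      exact hEF (Polynomial.aeval x (s.map W.subtype)).2
    · refine isPrim_aeval_qExpand_jq N _ (fun i => ?_) ?_
      · rw [Polynomial.coeff_map]
        exact W.valuation_le_one _
      · obtain ⟨i, hi⟩ := hs
        refine ⟨i, ?_⟩
        rw [Polynomial.coeff_map]
        exact W.valuation_unit hi.unit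

/-- `V` agrees with the Gauss ring on `K(j(q^M))` -/
def AgreeKJ (W : ValuationSubring K) (M : ℕ) [NeZero M] (ζ : K)
    (E : IntermediateField K (LaurentSeries K)) (V : ValuationSubring ↥E) : Prop :=
  ∀ y : ↥E, (y : LaurentSeries K) ∈ KJ (K := K) M →
    (y ∈ V ↔ InOw W.valuation (FFull M ζ) (y : LaurentSeries K))

include hϖ hF in
/-- a valuation subring which agrees with the Gauss ring on `K(j(q^M))` is Gauss-vertical with
respect to `j(q^M)` -/
theorem isVert_of_agreeKJ (E : IntermediateField K (LaurentSeries K)) (hEF : E ≤ FFull M ζ)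
    {V : ValuationSubring ↥E} (hag : AgreeKJ W M ζ E V) (x : ↥E)
    (hx : (x : LaurentSeries K) = jM K M) : IsVert W ℓ x V := by
  refine isVert_of_agree ((KJ (K := K) M).comap E.val) ?_ (fun y hy => ?_)
    (isVert_gaussOn hϖ hF E hEF M x hx)
  · show (x : LaurentSeries K) ∈ KJ (K := K) M
    rw [hx]
    exact jM_mem_KJ M
  · have hy' : (y : LaurentSeries K) ∈ KJ (K := K) M := hy
    rw [mem_gaussOn_iff]
    exact hag y hy'

theorem agreeKJ_gaussOn (E : IntermediateField K (LaurentSeries K)) (hEF : E ≤ FFull M ζ) :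
    AgreeKJ W M ζ E (gaussOn hϖ hF E hEF) := fun _ _ => Iff.rfl

end Gauss

end Fermat.Agent.S48.B.Igusa.U1.Setup

end
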