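/-
PROJECT D (S48), part B, block B2 = [B-igusa], file `Igusa/Unique1` (owner helper23), section (s2)
(helper4): TRANSPORT OF THE UNIQUENESS OF THE GAUSS EXTENSION ON `X₀(M)` ALONG `q ↦ q^M`.

`F0M K M = V_M (K ⊗ ℚ(X₀(M))) = K(j(q^(M d)) : d ∣ M) ⊆ K((q))`, `V_M = qExpandAlgHomC K M`.

* `F0M`, `vM : K ⊗ ℚ(X₀(M)) ≃ₐ[K] F0M K M`, `coe_vM`, `vM_jL`;
* `F0M_eq_adjoin`, `qExpand_jqModC_mem_F0M` : the generators `j(q^(M d))`, `d ∣ M`;
* `isVert_comap` : Gauss-vertical valuation subrings pull back along an isomorphism over `L`;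
* **`unique_F0M`** : over the inertia field `K0 A`, `ℓ ∤ M`, any two valuation subrings of
  `F0M (K0 A) M` which are Gauss-vertical with respect to `j(q^M)` coincide (pull back along `vM`,
  main's `S36/GaussUniqX0.eq_O0_of_vert`).
-/
import Mathlib
import Fermat.Agent.S36.GaussUniqX0
import Fermat.Agent.S48.B.Igusa.GaussBase

set_option autoImplicit false
set_option synthInstance.maxHeartbeats 400000

noncomputable section

namespace Fermat.Agent.S48.B.Igusa.U1.Transport

open HahnSeries ModularCurve IntermediateField Polynomial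
open Fermat.Agent.S18.C.SmallDVR (K0 W)
open Fermat.Agent.S48.B.Igusa

local notation "Kb" => AlgebraicClosure ℚ

/-! ### the field `F0M` -/

section Field

variable (K : Type*) [Field K] [Algebra ℚ K] (M : ℕ) [NeZero M]

/-- `V_M (K ⊗ ℚ(X₀(M))) = K(j(q^(M d)) : d ∣ M)` -/
def F0M : IntermediateField K (LaurentSeries K) :=
  (laurentBaseChange K (modularFunctionFieldFull M)).map (ModularCurve.qExpandAlgHomC K M)

/-- `V_M` as an isomorphism `K ⊗ ℚ(X₀(M)) ≃ F0M K M` over `K` -/
def vM : ↥(laurentBaseChange K (modularFunctionFieldFull M)) ≃ₐ[K] ↥(F0M K M) :=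
  IntermediateField.equivMap (laurentBaseChange K (modularFunctionFieldFull M))
    (ModularCurve.qExpandAlgHomC K M)

theorem coe_vM (y : ↥(laurentBaseChange K (modularFunctionFieldFull M))) :
    ((vM K M y : ↥(F0M K M)) : LaurentSeries K) = qExpand K M (y : LaurentSeries K) := rfl

theorem coe_vM_jL :
    ((vM K M (Fermat.Agent.S36.GaussL.jL K M) : ↥(F0M K M)) : LaurentSeries K) =
      qExpand K M (jqModC K) := by
  rw [coe_vM, Fermat.Agent.S36.GaussL.coe_jL, Fermat.Agent.S18.B.Basic.coeffEmb_jq]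

theorem vM_jL (x : ↥(F0M K M)) (hx : (x : LaurentSeries K) = qExpand K M (jqModC K)) :
    vM K M (Fermat.Agent.S36.GaussL.jL K M) = x :=
  Subtype.ext ((coe_vM_jL K M).trans hx.symm)

/-! ### generators -/

theorem coeffEmb_algebraMap (r : ℚ) :
    coeffEmb K (algebraMap ℚ (LaurentSeries ℚ) r) =
      algebraMap K (LaurentSeries K) (algebraMap ℚ K r) := by
  rw [algebraMap_laurentSeries_eq_single, algebraMap_laurentSeries_eq_single]
  exact coeffMap_single _ _ _

/-- `K · ℚ(S) = K(coeffEmb S)` -/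
theorem laurentBaseChange_adjoin (S : Set (LaurentSeries ℚ)) :
    laurentBaseChange K (IntermediateField.adjoin ℚ S) =
      IntermediateField.adjoin K (⇑(coeffEmb K) '' S) := by
  have key : ∀ y ∈ IntermediateField.adjoin ℚ S,
      coeffEmb K y ∈ IntermediateField.adjoin K (⇑(coeffEmb K) '' S) := by
    intro y hy
    induction hy using IntermediateField.adjoin_induction with
    | mem z hz => exact IntermediateField.subset_adjoin K _ ⟨z, hz, rfl⟩
    | algebraMap r =>
        rw [coeffEmb_algebraMap]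
        exact IntermediateField.algebraMap_mem _ _
    | add x y _ _ ihx ihy => rw [map_add]; exact add_mem ihx ihy
    | inv x _ ihx => rw [map_inv₀]; exact inv_mem ihx
    | mul x y _ _ ihx ihy => rw [map_mul]; exact mul_mem ihx ihy
  apply le_antisymm
  · refine IntermediateField.adjoin_le_iff.mpr ?_
    rintro _ ⟨y, hy, rfl⟩
    exact key y hy
  · exact IntermediateField.adjoin.mono K _ _
      (Set.image_mono (IntermediateField.subset_adjoin ℚ S))

/-- the generators `j(q^(M d))`, `d ∣ M`, of `F0M K M` -/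
def gensM : Set (LaurentSeries K) :=
  {z | ∃ (d : ℕ) (_ : NeZero d), d ∣ M ∧ z = qExpand K (M * d) (jqModC K)}

theorem qExpand_coeffEmb_jqd (d : ℕ) [NeZero d] :
    qExpand K M (coeffEmb K (qExpand ℚ d jq)) = qExpand K (M * d) (jqModC K) := by
  have h1 : coeffEmb K (qExpand ℚ d jq) = qExpand K d (jqModC K) := by
    rw [← Fermat.Agent.S18.B.Basic.coeffEmb_jq K]
    exact coeffMap_qExpand (algebraMap ℚ K) d jq
  rw [h1, qExpand_qExpand]

theorem image_gens :
    ⇑(ModularCurve.qExpandAlgHomC K M) '' (⇑(coeffEmb K) '' divisorExpansions M) = gensM K M := by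
  ext z
  constructor
  · rintro ⟨_, ⟨_, ⟨d, hd0, hd, rfl⟩, rfl⟩, rfl⟩
    exact ⟨d, hd0, hd, qExpand_coeffEmb_jqd K M d⟩
  · rintro ⟨d, hd0, hd, rfl⟩
    exact ⟨_, ⟨_, ⟨d, hd0, hd, rfl⟩, rfl⟩, qExpand_coeffEmb_jqd K M d⟩

/-- **`F0M K M = K(j(q^(M d)) : d ∣ M)`** -/
theorem F0M_eq_adjoin : F0M K M = IntermediateField.adjoin K (gensM K M) := by
  have h : laurentBaseChange K (modularFunctionFieldFull M) =
      IntermediateField.adjoin K (⇑(coeffEmb K) '' divisorExpansions M) :=
    laurentBaseChange_adjoin K _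
  show (laurentBaseChange K (modularFunctionFieldFull M)).map (ModularCurve.qExpandAlgHomC K M) = _
  rw [h, IntermediateField.adjoin_map, image_gens]

theorem qExpand_jqModC_mem_F0M {d : ℕ} [NeZero d] (hd : d ∣ M) :
    qExpand K (M * d) (jqModC K) ∈ F0M K M := by
  rw [F0M_eq_adjoin]
  exact IntermediateField.subset_adjoin K _ ⟨d, ‹_›, hd, rfl⟩

theorem qExpand_jqModC_mem_F0M_self : qExpand K M (jqModC K) ∈ F0M K M := by
  have h := qExpand_jqModC_mem_F0M K M (one_dvd M)
  rwa [qExpand_congr (mul_one M)] at h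

theorem F0M_le_of_gens {E : IntermediateField K (LaurentSeries K)}
    (hE : ∀ (d : ℕ) [NeZero d], d ∣ M → qExpand K (M * d) (jqModC K) ∈ E) : F0M K M ≤ E := by
  rw [F0M_eq_adjoin, IntermediateField.adjoin_le_iff]
  rintro _ ⟨d, hd0, hd, rfl⟩
  exact hE d hd

end Field

/-! ### Gauss-vertical valuation subrings pull back along isomorphisms -/

section Comap

variable {L F F' : Type*} [Field L] [Field F] [Field F'] [Algebra L F] [Algebra L F']

theorem isVert_comap (W : ValuationSubring L) (ℓ : ℕ) (e : F ≃ₐ[L] F') (x : F)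
    (V : ValuationSubring F') (hV : GaussBase.IsVert W ℓ (e x) V) :
    GaussBase.IsVert W ℓ x (V.comap (e : F →+* F')) := by
  obtain ⟨h1, h2, h3, h4⟩ := hV
  refine ⟨fun c => ?_, ?_, ?_, fun s hs => ?_⟩
  · show (e : F →+* F') (algebraMap L F (c : L)) ∈ V
    have : (e : F →+* F') (algebraMap L F (c : L)) = algebraMap L F' (c : L) := e.commutes _
    rw [this]
    exact h1 c
  · exact h2
  · intro h
    apply h3
    have h' : (e : F →+* F') (((ℓ : ℕ) : F))⁻¹ ∈ V := h
    rwa [map_inv₀, map_natCast] at h'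
  · show (e : F →+* F') (Polynomial.aeval x (s.map W.subtype))⁻¹ ∈ V
    have : (e : F →+* F') (Polynomial.aeval x (s.map W.subtype))⁻¹ =
        (Polynomial.aeval (e x) (s.map W.subtype))⁻¹ := by
      rw [map_inv₀]
      congr 1
      exact (Polynomial.aeval_algHom_apply (e : F →ₐ[L] F') x _).symm
    rw [this]
    exact h4 s hs

theorem eq_of_comap_eq (e : F ≃ₐ[L] F') (V V' : ValuationSubring F')
    (h : V.comap (e : F →+* F') = V'.comap (e : F →+* F')) : V = V' := by
  ext b
  obtain ⟨a, rfl⟩ := e.surjective b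
  have h1 : a ∈ V.comap (e : F →+* F') ↔ a ∈ V'.comap (e : F →+* F') := by rw [h]
  exact h1

end Comap

/-! ### the uniqueness on `F0M` -/

variable {ℓ : ℕ} [hℓ : Fact ℓ.Prime] {A : ValuationSubring Kb}

/-- **(s2)** : over the inertia field, a Gauss-vertical (with respect to `j(q^M)`) valuation
subring of `F0M (K0 A) M` is unique. -/
theorem unique_F0M (M : ℕ) [NeZero M] (hℓM : ¬ ℓ ∣ M) (hA : A.LiesOverPrime ℓ)
    (x : ↥(F0M ↥(K0 A) M))
    (hx : (x : LaurentSeries ↥(K0 A)) = qExpand ↥(K0 A) M (jqModC ↥(K0 A)))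
    (B B' : ValuationSubring ↥(F0M ↥(K0 A) M))
    (hB : GaussBase.IsVert (W A) ℓ x B) (hB' : GaussBase.IsVert (W A) ℓ x B') : B = B' := by
  have hxe : vM ↥(K0 A) M (Fermat.Agent.S36.GaussL.jL ↥(K0 A) M) = x := vM_jL _ M x hx
  have key : ∀ V : ValuationSubring ↥(F0M ↥(K0 A) M), GaussBase.IsVert (W A) ℓ x V →
      V.comap ((vM ↥(K0 A) M : _ ≃ₐ[↥(K0 A)] _) : _ →+* _) =
        Fermat.Agent.S36.GaussK0.O0 M hA hℓM := by
    intro V hV
    rw [← hxe] at hV
    obtain ⟨h1, h2, h3, h4⟩ := isVert_comap (W A) ℓ (vM ↥(K0 A) M) _ V hV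
    exact Fermat.Agent.S36.GaussUniqX0.eq_O0_of_vert M hA hℓM h1 h2 h3 h4
  exact eq_of_comap_eq (vM ↥(K0 A) M) B B' ((key B hB).trans (key B' hB').symm)

end Fermat.Agent.S48.B.Igusa.U1.Transport
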