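/-
PROJECT D (S48, Deligne–Serre), PART B, block B2 (Igusa for `X₁(M)`), brick U1, file `Main`
(helper23): **THE UNIQUENESS SEAM `Seams.Unique1 M`**.

Over the inertia field `K = K0 A` (valuation ring `W A`, uniformiser `ℓ ∤ M`), the Gauss valuation
ring `𝔸` of helper12's full level `M` field `FFull M u` (`u` a primitive `M`-th root of unity of `K`)
has decomposition group `D = Gal(FFull / K(j(q^M))) ≅ SL₂(ℤ/M)/±1`:

* (s3) `q ↦ u q` preserves `𝔸` (`Ratio.inOw_rescaleU_FFull`), so the upper unipotent matrices are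
  in `D`; the Gauss-vertical valuation ring of `F0M = K(j(q^{M d}) : d ∣ M)` is unique (helper4's
  `Transport.unique_F0M`, from main's `S36/GaussUniqX0`), so `G = D · B` with `B` inside the upper
  Borel (helper3's `Val/Decomp.exists_mul_of_unique`, helper12's `Extra.act_jMM_iff`); hence
  `D = ⊤` (helper12's `GroupGen.eq_top_of_upper_map`) : `decomp_eq_top`, `inOw_act`;
* (s4) a valuation subring of `K ⊗ F1 M` which is Gauss-vertical with respect to `j(q)` restricts on
  `K ⊗ ℚ(X₀(M))` to main's `O0`, as does `𝔸`; so it agrees with `𝔸` on `K(j(q^M))`, and `D = ⊤`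
  forces it to be the restriction of `𝔸` (helper3's `eq_comap_of_decompositionSubgroup_eq_top`).
-/
import Mathlib
import Fermat.Agent.S36.GaussUniqX0
import Fermat.Agent.S48.B.Val.Decomp
import Fermat.Agent.S48.B.Igusa.GroupGen
import Fermat.Agent.S48.B.Igusa.Full.Extra
import Fermat.Agent.S48.B.Igusa.Seams
import Fermat.Agent.S48.B.Igusa.U1.Setup
import Fermat.Agent.S48.B.Igusa.U1.Inertia
import Fermat.Agent.S48.B.Igusa.U1.Transport

set_option autoImplicit false
set_option synthInstance.maxHeartbeats 400000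

noncomputable section

namespace Fermat.Agent.S48.B.Igusa.U1.Main

open HahnSeries ModularCurve IntermediateField Polynomial
open Fermat.Agent.S48.B.Igusa.GaussDVR Fermat.Agent.S48.B.Igusa.Full.Defs
open Fermat.Agent.S48.B.Igusa.Full Fermat.Agent.S48.B.Igusa.U1.Ratio
open Fermat.Agent.S48.B.Igusa.U1.Setup
open Fermat.Agent.S48.B.Igusa.GaussBase (IsVert)
open Fermat.Agent.S48.B.Igusa.GroupGen
open Fermat.Agent.S48.B.Defs.Model
open scoped Pointwise MatrixGroups

/-! ### Membership in a decomposition group -/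

section DecompGeneric

variable {K L : Type*} [Field K] [Field L] [Algebra K L]

theorem mem_decomp_of_iff (A : ValuationSubring L) (σ : L ≃ₐ[K] L)
    (hσ : ∀ x, σ x ∈ A ↔ x ∈ A) : σ ∈ A.decompositionSubgroup K := by
  have h1 : σ⁻¹ ∈ A.decompositionSubgroup K := by
    show σ⁻¹ • A = A
    ext x
    rw [ValuationSubring.mem_pointwise_smul_iff_inv_smul_mem, inv_inv, AlgEquiv.smul_def]
    exact hσ x
  have h2 := (A.decompositionSubgroup K).inv_mem h1
  rwa [inv_inv] at h2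

theorem apply_mem_iff_of_mem_decomp (A : ValuationSubring L) (σ : L ≃ₐ[K] L)
    (hσ : σ ∈ A.decompositionSubgroup K) (x : L) : σ x ∈ A ↔ x ∈ A := by
  have h1 : σ • A = A := hσ
  have h2 : σ x ∈ σ • A ↔ x ∈ A := by
    rw [ValuationSubring.mem_pointwise_smul_iff_inv_smul_mem, AlgEquiv.smul_def]
    show σ.symm (σ x) ∈ A ↔ x ∈ A
    rw [AlgEquiv.symm_apply_apply]
  rwa [h1] at h2

end DecompGeneric

/-! ### Transport between `rel E` and `E` -/

section Transport

variable {K : Type*} [Field K] {W : ValuationSubring K} {ℓ : ℕ} {M : ℕ} [NeZero M] {ζ : K}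
  (hϖ : IsUnif W.valuation (((ℓ : ℕ) : K))) (hF : IsRatio W.valuation (FFull M ζ))
  {E : IntermediateField K (LaurentSeries K)} (hE : KJ (K := K) M ≤ E) (hEF : E ≤ FFull M ζ)

/-- a valuation subring of `rel E`, on `E` -/
def toAbs (A'' : ValuationSubring ↥(rel M ζ E hE)) : ValuationSubring ↥E :=
  A''.comap ((relEquiv hE hEF).symm : ↥E →+* ↥(rel M ζ E hE))

/-- a valuation subring of `E`, on `rel E` -/
def toRel (V : ValuationSubring ↥E) : ValuationSubring ↥(rel M ζ E hE) :=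
  V.comap ((relEquiv hE hEF : ↥(rel M ζ E hE) ≃+* ↥E) : ↥(rel M ζ E hE) →+* ↥E)

theorem mem_toAbs_iff {A'' : ValuationSubring ↥(rel M ζ E hE)} {y : ↥E} :
    y ∈ toAbs hE hEF A'' ↔ (relEquiv hE hEF).symm y ∈ A'' := Iff.rfl

theorem mem_toRel_iff {V : ValuationSubring ↥E} {z : ↥(rel M ζ E hE)} :
    z ∈ toRel hE hEF V ↔ relEquiv hE hEF z ∈ V := Iff.rfl

theorem toRel_toAbs (A'' : ValuationSubring ↥(rel M ζ E hE)) :
    toRel hE hEF (toAbs hE hEF A'') = A'' := by
  ext z
  rw [mem_toRel_iff, mem_toAbs_iff, RingEquiv.symm_apply_apply]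

theorem toAbs_toRel (V : ValuationSubring ↥E) : toAbs hE hEF (toRel hE hEF V) = V := by
  ext y
  rw [mem_toAbs_iff, mem_toRel_iff, RingEquiv.apply_symm_apply]

theorem toRel_gaussOn :
    toRel hE hEF (gaussOn hϖ hF E hEF) =
      (gaussA hϖ hF).comap (algebraMap ↥(rel M ζ E hE) ↥(FFull M ζ)) := by
  ext z
  exact Iff.rfl

/-- a valuation subring of `rel E` with the same contraction to `K(j(q^M))` as `𝔸` agrees with
`𝔸` on `K(j(q^M))` -/
theorem agreeKJ_toAbs (A'' : ValuationSubring ↥(rel M ζ E hE))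
    (hA'' : A''.comap (algebraMap ↥(K0 M ζ) ↥(rel M ζ E hE)) =
      ((gaussA hϖ hF).comap (algebraMap ↥(rel M ζ E hE) ↥(FFull M ζ))).comap
        (algebraMap ↥(K0 M ζ) ↥(rel M ζ E hE))) :
    AgreeKJ W M ζ E (toAbs hE hEF A'') := by
  intro y hy
  have h1 : (relEquiv hE hEF).symm y = algebraMap ↥(K0 M ζ) ↥(rel M ζ E hE)
      ⟨⟨(y : LaurentSeries K), hEF y.2⟩, mem_K0_of_coe_mem_KJ M ζ hy⟩ := rfl
  rw [mem_toAbs_iff, h1, ← ValuationSubring.mem_comap, hA'']
  exact Iff.rfl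

theorem comap_toRel_of_agreeKJ (V : ValuationSubring ↥E) (hag : AgreeKJ W M ζ E V) :
    (toRel hE hEF V).comap (algebraMap ↥(K0 M ζ) ↥(rel M ζ E hE)) =
      ((gaussA hϖ hF).comap (algebraMap ↥(rel M ζ E hE) ↥(FFull M ζ))).comap
        (algebraMap ↥(K0 M ζ) ↥(rel M ζ E hE)) := by
  ext k
  rw [ValuationSubring.mem_comap, mem_toRel_iff]
  have hy : ((relEquiv hE hEF (algebraMap ↥(K0 M ζ) ↥(rel M ζ E hE) k) : ↥E) :
      LaurentSeries K) ∈ KJ (K := K) M := coe_mem_KJ M ζ k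
  rw [hag _ hy]
  exact Iff.rfl

include hE in
/-- **if the decomposition group of `𝔸` is everything, a valuation subring of `E` which agrees with
`𝔸` on `K(j(q^M))` is the restriction of `𝔸`** -/
theorem eq_gaussOn_of_agreeKJ [FiniteDimensional ↥(K0 M ζ) ↥(FFull M ζ)]
    [IsGalois ↥(K0 M ζ) ↥(FFull M ζ)]
    (hD : (gaussA hϖ hF).decompositionSubgroup ↥(K0 M ζ) = ⊤) (V : ValuationSubring ↥E)
    (hag : AgreeKJ W M ζ E V) : V = gaussOn hϖ hF E hEF := by
  have h1 := Fermat.Agent.S48.B.Val.Decomp.eq_comap_of_decompositionSubgroup_eq_top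
    (gaussA hϖ hF) hD (rel M ζ E hE) (toRel hE hEF V)
    (comap_toRel_of_agreeKJ hϖ hF hE hEF V hag)
  rw [← toAbs_toRel hE hEF V, h1, ← toRel_gaussOn hϖ hF hE hEF, toAbs_toRel]

end Transport

/-! ### (s3) The decomposition group of the Gauss ring is everything -/

section Galois

variable {K : Type*} [Field K] {W : ValuationSubring K} {ℓ : ℕ} {M : ℕ} [NeZero M]
  {ι : K →+* ℂ} {u : Kˣ}
  (hϖ : IsUnif W.valuation (((ℓ : ℕ) : K))) (hF : IsRatio W.valuation (FFull M (u : K)))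
  (hu : u ^ M = 1) (h : Galois.Input M ι (u : K))

include hu in
/-- `q ↦ u q` is in the decomposition group -/
theorem act_E12_one_inv_mem :
    Galois.act h (E12 (1 : ZMod M))⁻¹ ∈
      (gaussA hϖ hF).decompositionSubgroup ↥(K0 M (u : K)) := by
  refine mem_decomp_of_iff _ _ fun x => ?_
  rw [mem_Ow_iff, mem_Ow_iff, Galois.act_E12_inv hu h x]
  exact inOw_rescaleU_FFull hu

omit [NeZero M] in
theorem E12_natCast (n : ℕ) : E12 ((n : ℕ) : ZMod M) = (E12 (1 : ZMod M)) ^ n := by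
  induction n with
  | zero => rw [Nat.cast_zero, E12_zero, pow_zero]
  | succ n ih => rw [Nat.cast_succ, E12_add, ih, pow_succ]

include hu in
/-- the upper unipotent matrices are in the decomposition group -/
theorem act_E12_mem (x : ZMod M) :
    Galois.act h (E12 x) ∈ (gaussA hϖ hF).decompositionSubgroup ↥(K0 M (u : K)) := by
  have h1 := act_E12_one_inv_mem hϖ hF hu h
  rw [map_inv] at h1
  have h2 := (Subgroup.inv_mem_iff _).mp h1
  have h3 : E12 x = (E12 (1 : ZMod M)) ^ x.val := by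
    rw [← E12_natCast, ZMod.natCast_zmod_val]
  rw [h3, map_pow]
  exact Subgroup.pow_mem _ h2 _

variable (E : IntermediateField K (LaurentSeries K)) (hE : KJ (K := K) M ≤ E)
  (hEF : E ≤ FFull M (u : K))

/-- the subgroup of `SL₂(ℤ/M)` fixing `E` -/
def Bsub : Subgroup SL(2, ZMod M) :=
  ((rel M (u : K) E hE).fixingSubgroup).comap (Galois.act h)

/-- the subgroup fixing a field which contains `j(q^{M²})` is inside the upper Borel -/
theorem Bsub_le_borel (hMM : qExpand K (M * M) (jqModC K) ∈ E) :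
    Bsub h E hE ≤ borelUpper (ZMod M) := by
  intro b hb
  have hb' : Galois.act h b ∈ (rel M (u : K) E hE).fixingSubgroup := hb
  rw [IntermediateField.mem_fixingSubgroup_iff] at hb'
  rw [mem_borelUpper_iff]
  exact (Extra.act_jMM_iff h b).1 (hb' _ hMM)

include hEF in
/-- if `E ≤ FFull` contains `j(q^M)` and has only one valuation subring which is Gauss-vertical with
respect to `j(q^M)`, the restriction of the Gauss ring to `E` is determined by its contraction to
`K(j(q^M))` -/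
theorem eq_comap_of_comap_eq (x₀ : ↥E) (hx₀ : (x₀ : LaurentSeries K) = qExpand K M (jqModC K))
    (huniq : ∀ B B' : ValuationSubring ↥E, IsVert W ℓ x₀ B → IsVert W ℓ x₀ B' → B = B')
    (A'' : ValuationSubring ↥(rel M (u : K) E hE))
    (hA'' : A''.comap (algebraMap ↥(K0 M (u : K)) ↥(rel M (u : K) E hE)) =
      ((gaussA hϖ hF).comap (algebraMap ↥(rel M (u : K) E hE) ↥(FFull M (u : K)))).comap
        (algebraMap ↥(K0 M (u : K)) ↥(rel M (u : K) E hE))) :
    A'' = (gaussA hϖ hF).comap (algebraMap ↥(rel M (u : K) E hE) ↥(FFull M (u : K))) := by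
  have hag := agreeKJ_toAbs hϖ hF hE hEF A'' hA''
  have hv1 : IsVert W ℓ x₀ (toAbs hE hEF A'') := isVert_of_agreeKJ hϖ hF E hEF hag x₀ hx₀
  have hv2 : IsVert W ℓ x₀ (gaussOn hϖ hF E hEF) := isVert_gaussOn hϖ hF E hEF M x₀ hx₀
  have h3 := huniq _ _ hv1 hv2
  rw [← toRel_toAbs hE hEF A'', h3, toRel_gaussOn]

include hEF in
/-- `G = D · B` -/
theorem exists_mul_act (x₀ : ↥E) (hx₀ : (x₀ : LaurentSeries K) = qExpand K M (jqModC K))
    (huniq : ∀ B B' : ValuationSubring ↥E, IsVert W ℓ x₀ B → IsVert W ℓ x₀ B' → B = B')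
    (g : ↥(FFull M (u : K)) ≃ₐ[↥(K0 M (u : K))] ↥(FFull M (u : K))) :
    ∃ d ∈ (gaussA hϖ hF).decompositionSubgroup ↥(K0 M (u : K)),
      ∃ b ∈ Bsub h E hE, g = d * Galois.act h b := by
  have := Galois.isGalois h
  have := Galois.finiteDimensional h
  obtain ⟨d, hd, f, hf, hg⟩ := Fermat.Agent.S48.B.Val.Decomp.exists_mul_of_unique
    (gaussA hϖ hF) (rel M (u : K) E hE)
    (eq_comap_of_comap_eq hϖ hF E hE hEF x₀ hx₀ huniq) g
  obtain ⟨b, rfl⟩ := Galois.act_surjective h f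
  exact ⟨d, hd, b, hf, hg⟩

include hu h hE hEF in
/-- **(s3)** : if `E ≤ FFull` contains `j(q^M)` and `j(q^{M²})` and has only one valuation subring
which is Gauss-vertical with respect to `j(q^M)`, then the decomposition group of the Gauss ring of
`FFull` is the whole Galois group. -/
theorem decomp_eq_top (hMM : qExpand K (M * M) (jqModC K) ∈ E) (x₀ : ↥E)
    (hx₀ : (x₀ : LaurentSeries K) = qExpand K M (jqModC K))
    (huniq : ∀ B B' : ValuationSubring ↥E, IsVert W ℓ x₀ B → IsVert W ℓ x₀ B' → B = B') :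
    (gaussA hϖ hF).decompositionSubgroup ↥(K0 M (u : K)) = ⊤ :=
  eq_top_of_upper_map M (Galois.act h) (Galois.act_surjective h)
    ((gaussA hϖ hF).decompositionSubgroup ↥(K0 M (u : K))) (Bsub h E hE)
    (act_E12_mem hϖ hF hu h) (Bsub_le_borel h E hE hMM)
    (exists_mul_act hϖ hF h E hE hEF x₀ hx₀ huniq)

/-- the Galois group preserves the Gauss ring -/
theorem inOw_act_of
    (hD : (gaussA hϖ hF).decompositionSubgroup ↥(K0 M (u : K)) = ⊤) (g : SL(2, ZMod M))
    (x : ↥(FFull M (u : K))) (hx : InOw W.valuation (FFull M (u : K)) (x : LaurentSeries K)) :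
    InOw W.valuation (FFull M (u : K))
      ((Galois.act h g x : ↥(FFull M (u : K))) : LaurentSeries K) := by
  have hg : Galois.act h g ∈ (gaussA hϖ hF).decompositionSubgroup ↥(K0 M (u : K)) := by
    rw [hD]
    exact Subgroup.mem_top _
  exact (apply_mem_iff_of_mem_decomp _ _ hg x).2 hx

end Galois

/-! ### Over the inertia field -/

section Final

local notation "Kb" => AlgebraicClosure ℚ
local notation "Ki" => Fermat.Agent.S18.C.SmallDVR.K0
local notation "Wi" => Fermat.Agent.S18.C.SmallDVR.W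

open Fermat.Agent.S36.GaussL (jL coe_jL)

/-- helper12's `Extra.F1_le` for an arbitrary `ℚ`-algebra structure on the field -/
theorem F1_le_any {M : ℕ} [NeZero M] {L : Type*} [Field L] [inst : Algebra ℚ L] {ι : L →+* ℂ}
    {ζ : L} (h : Galois.Input M ι ζ) : laurentBaseChange L (F1 M) ≤ FFull M ζ := by
  have hc : CharZero L := algebraRat.charZero L
  have e : inst = DivisionRing.toRatAlgebra := Subsingleton.elim _ _
  subst e
  exact Extra.F1_le h

variable {ℓ : ℕ} [hℓ : Fact ℓ.Prime] {A : ValuationSubring Kb} (M : ℕ) [NeZero M]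
  (hA : A.LiesOverPrime ℓ) (hℓM : ¬ ℓ ∣ M) {ι : ↥(Ki A) →+* ℂ} {u : (↥(Ki A))ˣ}
  (hu : u ^ M = 1) (h : Galois.Input M ι (u : ↥(Ki A)))

theorem KJ_le_F0M : KJ (K := ↥(Ki A)) M ≤ Transport.F0M ↥(Ki A) M := by
  unfold KJ
  rw [IntermediateField.adjoin_le_iff]
  intro x hx
  rw [Set.mem_singleton_iff] at hx
  rw [hx]
  exact Transport.qExpand_jqModC_mem_F0M_self ↥(Ki A) M

include h in
theorem F0M_le_FFull : Transport.F0M ↥(Ki A) M ≤ FFull M (u : ↥(Ki A)) :=
  Transport.F0M_le_of_gens ↥(Ki A) M fun _ _ hd => Extra.jMul_mem' h hd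

include hA hℓM h in
/-- `FFull` consists of quotients of integral elements -/
theorem isRatio_Ki : IsRatio (Wi A).valuation (FFull M (u : ↥(Ki A))) :=
  isRatio_FFull' (Inertia.isUnif_W hA) (Inertia.valuation_natCast_eq_one hA hℓM)
    (Galois.isPrimitiveRoot h)

include hu in
/-- **(s3) over the inertia field** -/
theorem decomp_eq_top_Ki :
    (gaussA (Inertia.isUnif_W hA) (isRatio_Ki M hA hℓM h)).decompositionSubgroup
      ↥(K0 M (u : ↥(Ki A))) = ⊤ :=
  decomp_eq_top (Inertia.isUnif_W hA) (isRatio_Ki M hA hℓM h) hu h (Transport.F0M ↥(Ki A) M)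
    (KJ_le_F0M M) (F0M_le_FFull M h)
    (Transport.qExpand_jqModC_mem_F0M ↥(Ki A) M (dvd_refl M))
    ⟨qExpand ↥(Ki A) M (jqModC ↥(Ki A)), Transport.qExpand_jqModC_mem_F0M_self ↥(Ki A) M⟩ rfl
    (fun B B' hB hB' => Transport.unique_F0M M hℓM hA _ rfl B B' hB hB')

include hA hℓM hu in
/-- **helper16's (H2)** : over the inertia field, the Galois group `SL₂(ℤ/M)` of the full level `M`
field preserves the Gauss ring. -/
theorem inOw_act (g : SL(2, ZMod M)) (x : ↥(FFull M (u : ↥(Ki A))))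
    (hx : InOw (Wi A).valuation (FFull M (u : ↥(Ki A))) (x : LaurentSeries ↥(Ki A))) :
    InOw (Wi A).valuation (FFull M (u : ↥(Ki A)))
      ((Galois.act h g x : ↥(FFull M (u : ↥(Ki A)))) : LaurentSeries ↥(Ki A)) :=
  inOw_act_of (Inertia.isUnif_W hA) (isRatio_Ki M hA hℓM h) h
    (decomp_eq_top_Ki M hA hℓM hu h) g x hx

theorem KJ_le_F0K :
    KJ (K := ↥(Ki A)) M ≤ laurentBaseChange ↥(Ki A) (modularFunctionFieldFull M) := by
  unfold KJ
  rw [IntermediateField.adjoin_le_iff]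
  intro x hx
  rw [Set.mem_singleton_iff] at hx
  rw [hx]
  have h1 : jM ↥(Ki A) M = coeffEmb ↥(Ki A) (qExpand ℚ M jq) := by
    rw [coeffEmb_qExpand, Fermat.Agent.S18.B.Basic.coeffEmb_jq]
    rfl
  rw [h1]
  exact coeffEmb_mem_laurentBaseChange _ (jqd_mem_full M (dvd_refl M))

/-- `K ⊗ ℚ(X₀(M)) ≤ K ⊗ F1 M` -/
theorem F0K_le_F1K : laurentBaseChange ↥(Ki A) (modularFunctionFieldFull M) ≤
    laurentBaseChange ↥(Ki A) (F1 M) := laurentBaseChange_mono ↥(Ki A) (full_le_F1 M)

include hA hℓM in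
/-- a valuation subring of `K ⊗ F1 M` which is Gauss-vertical with respect to `j(q)` restricts on
`K ⊗ ℚ(X₀(M))` to main's `O0` -/
theorem comap_eq_O0 (V : ValuationSubring ↥(laurentBaseChange ↥(Ki A) (F1 M)))
    (hV : IsVert (Wi A) ℓ (DegBC.jL1 M ↥(Ki A)) V) :
    V.comap ((IntermediateField.inclusion (F0K_le_F1K (A := A) M) :
        ↥(laurentBaseChange ↥(Ki A) (modularFunctionFieldFull M)) →ₐ[↥(Ki A)] _) :
        ↥(laurentBaseChange ↥(Ki A) (modularFunctionFieldFull M)) →+* _) =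
      Fermat.Agent.S36.GaussK0.O0 M hA hℓM := by
  have hj : IntermediateField.inclusion (F0K_le_F1K (A := A) M) (jL ↥(Ki A) M) =
      DegBC.jL1 M ↥(Ki A) := by
    apply Subtype.ext
    rw [IntermediateField.coe_inclusion, coe_jL]
    rfl
  have hV0 : IsVert (Wi A) ℓ (jL ↥(Ki A) M)
      (V.comap ((IntermediateField.inclusion (F0K_le_F1K (A := A) M) :
        ↥(laurentBaseChange ↥(Ki A) (modularFunctionFieldFull M)) →ₐ[↥(Ki A)] _) :
        ↥(laurentBaseChange ↥(Ki A) (modularFunctionFieldFull M)) →+* _)) := by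
    refine IsVert.comap (IntermediateField.inclusion (F0K_le_F1K (A := A) M)) ?_
    rw [hj]
    exact hV
  obtain ⟨h1, h2, h3, h4⟩ := hV0
  exact Fermat.Agent.S36.GaussUniqX0.eq_O0_of_vert M hA hℓM h1 h2 h3 h4

include hA hℓM h in
/-- so does the Gauss ring of `FFull` -/
theorem gaussOn_F0K_eq_O0 :
    gaussOn (Inertia.isUnif_W hA) (isRatio_Ki M hA hℓM h)
      (laurentBaseChange ↥(Ki A) (modularFunctionFieldFull M))
      ((F0K_le_F1K (A := A) M).trans (F1_le_any h)) =
      Fermat.Agent.S36.GaussK0.O0 M hA hℓM := by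
  have hG0 : IsVert (Wi A) ℓ (jL ↥(Ki A) M)
      (gaussOn (Inertia.isUnif_W hA) (isRatio_Ki M hA hℓM h) _
        ((F0K_le_F1K (A := A) M).trans (F1_le_any h))) := by
    refine isVert_gaussOn _ _ _ _ 1 _ ?_
    rw [coe_jL, Fermat.Agent.S18.B.Basic.coeffEmb_jq, qExpand_one_apply]
  obtain ⟨h1, h2, h3, h4⟩ := hG0
  exact Fermat.Agent.S36.GaussUniqX0.eq_O0_of_vert M hA hℓM h1 h2 h3 h4

include hA hℓM h in
/-- **(s4), first half** : a valuation subring of `K ⊗ F1 M` which is Gauss-vertical with respect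
to `j(q)` agrees with the Gauss ring of `FFull` on `K(j(q^M))`. -/
theorem agreeKJ_of_isVert (V : ValuationSubring ↥(laurentBaseChange ↥(Ki A) (F1 M)))
    (hV : IsVert (Wi A) ℓ (DegBC.jL1 M ↥(Ki A)) V) :
    AgreeKJ (Wi A) M (u : ↥(Ki A)) (laurentBaseChange ↥(Ki A) (F1 M)) V := by
  have e1 := comap_eq_O0 M hA hℓM V hV
  have e2 := gaussOn_F0K_eq_O0 M hA hℓM h
  intro y hy
  have hy0 := KJ_le_F0K M hy
  have hyy : IntermediateField.inclusion (F0K_le_F1K (A := A) M)
      ⟨(y : LaurentSeries ↥(Ki A)), hy0⟩ = y := Subtype.ext rfl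
  have h3 : (⟨(y : LaurentSeries ↥(Ki A)), hy0⟩ :
      ↥(laurentBaseChange ↥(Ki A) (modularFunctionFieldFull M))) ∈
        V.comap ((IntermediateField.inclusion (F0K_le_F1K (A := A) M) :
          ↥(laurentBaseChange ↥(Ki A) (modularFunctionFieldFull M)) →ₐ[↥(Ki A)] _) :
          ↥(laurentBaseChange ↥(Ki A) (modularFunctionFieldFull M)) →+* _) ↔
      (⟨(y : LaurentSeries ↥(Ki A)), hy0⟩ :
      ↥(laurentBaseChange ↥(Ki A) (modularFunctionFieldFull M))) ∈
        gaussOn (Inertia.isUnif_W hA) (isRatio_Ki M hA hℓM h) _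
          ((F0K_le_F1K (A := A) M).trans (F1_le_any h)) := by
    rw [e1, ← e2]
  rw [ValuationSubring.mem_comap, mem_gaussOn_iff] at h3
  have h4 : IntermediateField.inclusion (F0K_le_F1K (A := A) M)
      ⟨(y : LaurentSeries ↥(Ki A)), hy0⟩ ∈ V ↔ _ := h3
  rw [hyy] at h4
  exact h4

include hu in
/-- **(s4)** : the Gauss-vertical valuation subring of `K ⊗ F1 M` is the restriction of the Gauss
ring of `FFull`. -/
theorem eq_gaussOn_of_isVert (V : ValuationSubring ↥(laurentBaseChange ↥(Ki A) (F1 M)))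
    (hV : IsVert (Wi A) ℓ (DegBC.jL1 M ↥(Ki A)) V) :
    V = gaussOn (Inertia.isUnif_W hA) (isRatio_Ki M hA hℓM h)
      (laurentBaseChange ↥(Ki A) (F1 M)) (F1_le_any h) := by
  have := Galois.isGalois h
  have := Galois.finiteDimensional h
  have hE : KJ (K := ↥(Ki A)) M ≤ laurentBaseChange ↥(Ki A) (F1 M) :=
    (KJ_le_F0K M).trans (laurentBaseChange_mono ↥(Ki A) (full_le_F1 M))
  exact eq_gaussOn_of_agreeKJ (Inertia.isUnif_W hA) (isRatio_Ki M hA hℓM h) hE (F1_le_any h)
    (decomp_eq_top_Ki M hA hℓM hu h) V (agreeKJ_of_isVert M hA hℓM h V hV)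

end Final

/-- **THE UNIQUENESS SEAM OF B2** -/
theorem unique1 (M : ℕ) [NeZero M] : Seams.Unique1 M := by
  intro ℓ _ hℓM A hA V V' hV hV'
  obtain ⟨ι, u, hu, h⟩ := Inertia.exists_input M hA hℓM
  rw [eq_gaussOn_of_isVert M hA hℓM hu h V hV, eq_gaussOn_of_isVert M hA hℓM hu h V' hV']

end Fermat.Agent.S48.B.Igusa.U1.Main

end
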