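/-
PROJECT D (S48, Deligne–Serre), PART B, block B2 (Igusa for `X₁(M)`), brick U1, file `ActStable`
(helper23): helper16's seam `Red.Cusp1.FromFull.All.ActStable M` (the Galois group of the full
level `M` field over the inertia field preserves its Gauss ring) is `U1.Main.inOw_act`; hence the
seam `Cusp1.Seams.CuspFam1 M A` of brick C of B3 holds at every `A` over every `ℓ ∤ M`.
-/
import Mathlib
import Fermat.Agent.S48.B.Igusa.U1.Main
import Fermat.Agent.S48.B.Red.Cusp1.FromFull.All

set_option autoImplicit false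

namespace Fermat.Agent.S48.B.Igusa.U1.ActStable

local notation "Kb" => AlgebraicClosure ℚ

/-- **the Gauss ring of `FFull M u` over the inertia field is stable under the Galois group** -/
theorem actStable (M : ℕ) [NeZero M] :
    Fermat.Agent.S48.B.Red.Cusp1.FromFull.All.ActStable M :=
  fun _ _ hℓM _ hA _ _ hu h g x hx =>
    Fermat.Agent.S48.B.Igusa.U1.Main.inOw_act M hA hℓM hu h g x hx

/-- **`CuspFam1 M A` at every `A` over every `ℓ ∤ M`**, hypothesis-free -/
theorem cuspFam1_all (M : ℕ) [NeZero M] :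
    ∀ (ℓ : ℕ) [Fact ℓ.Prime], ¬ ℓ ∣ M → ∀ A : ValuationSubring Kb, A.LiesOverPrime ℓ →
      Fermat.Agent.S48.B.Red.Cusp1.Seams.CuspFam1 M A :=
  Fermat.Agent.S48.B.Red.Cusp1.FromFull.All.cuspFam1_all M (actStable M)

end Fermat.Agent.S48.B.Igusa.U1.ActStable
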